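import Mathlib
import Fermat.Prelude.Thm_IsLocalRing_isAdicComplete_of_module_finite

/-!
# Power series rings over a complete local ring, as complete Noetherian local algebras

Block [C] for S53 (also reusable elsewhere).  Everything lives in `Fermat.Agent.S53.H596`.
-/

set_option autoImplicit false
set_option linter.unusedSectionVars false

namespace Fermat.Agent.S53.H596

noncomputable section

open IsLocalRing

section Filtration

variable {σ : Type*} {R : Type*} [CommRing R]

/-- The ideal of power series whose constant coefficient lies in `𝔞`. -/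
def constIdeal (σ : Type*) {R : Type*} [CommRing R] (𝔞 : Ideal R) : Ideal (MvPowerSeries σ R) :=
  Ideal.comap (MvPowerSeries.constantCoeff (σ := σ) (R := R)) 𝔞

theorem mem_constIdeal_iff (𝔞 : Ideal R) (f : MvPowerSeries σ R) :
    f ∈ constIdeal σ 𝔞 ↔ MvPowerSeries.constantCoeff f ∈ 𝔞 := Iff.rfl

theorem X_mem_constIdeal (𝔞 : Ideal R) (i : σ) :
    (MvPowerSeries.X i : MvPowerSeries σ R) ∈ constIdeal σ 𝔞 := by
  rw [mem_constIdeal_iff]
  simp

theorem C_mem_constIdeal {𝔞 : Ideal R} {c : R} (hc : c ∈ 𝔞) :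
    (MvPowerSeries.C c : MvPowerSeries σ R) ∈ constIdeal σ 𝔞 := by
  rw [mem_constIdeal_iff]
  simpa using hc

/-- The "coefficientwise" filtration ideal: `coeff e f ∈ 𝔞 ^ (n - deg e)`. -/
def coeffIdeal (σ : Type*) {R : Type*} [CommRing R] (𝔞 : Ideal R) (n : ℕ) :
    Ideal (MvPowerSeries σ R) where
  carrier := {f | ∀ e : σ →₀ ℕ, MvPowerSeries.coeff e f ∈ 𝔞 ^ (n - e.degree)}
  add_mem' {f g} hf hg e := by
    rw [map_add]
    exact Ideal.add_mem _ (hf e) (hg e)
  zero_mem' e := by simp
  smul_mem' c f hf e := by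
    classical
    rw [smul_eq_mul, MvPowerSeries.coeff_mul]
    refine Ideal.sum_mem _ fun p hp => ?_
    refine Ideal.mul_mem_left _ _ ?_
    have hle : p.2.degree ≤ e.degree := by
      rw [Finset.HasAntidiagonal.mem_antidiagonal] at hp
      rw [← hp, map_add]
      exact Nat.le_add_left _ _
    exact Ideal.pow_le_pow_right (Nat.sub_le_sub_left hle n) (hf p.2)

theorem mem_coeffIdeal_iff (𝔞 : Ideal R) (n : ℕ) (f : MvPowerSeries σ R) :
    f ∈ coeffIdeal σ 𝔞 n ↔
      ∀ e : σ →₀ ℕ, MvPowerSeries.coeff e f ∈ 𝔞 ^ (n - e.degree) :=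
  Iff.rfl

theorem constIdeal_pow_le_coeffIdeal (𝔞 : Ideal R) (n : ℕ) :
    constIdeal σ 𝔞 ^ n ≤ coeffIdeal σ 𝔞 n := by
  classical
  induction n with
  | zero =>
    intro f _ e
    simp
  | succ n ih =>
    rw [pow_succ]
    refine Ideal.mul_le.mpr fun f hf h hh => ?_
    have hf' := ih hf
    intro e
    rw [MvPowerSeries.coeff_mul]
    refine Ideal.sum_mem _ fun p hp => ?_
    rw [Finset.HasAntidiagonal.mem_antidiagonal] at hp
    have hdeg : p.1.degree + p.2.degree = e.degree := by rw [← hp, map_add]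
    by_cases hp2 : p.2 = 0
    · have h0 : MvPowerSeries.coeff p.2 h ∈ 𝔞 := by
        rw [hp2]
        exact (mem_constIdeal_iff 𝔞 h).mp hh
      have h1 := hf' p.1
      have hd : p.1.degree = e.degree := by
        rw [← hdeg, hp2]; simp
      rw [hd] at h1
      have : MvPowerSeries.coeff p.1 f * MvPowerSeries.coeff p.2 h ∈
          𝔞 ^ (n - e.degree) * 𝔞 := Ideal.mul_mem_mul h1 h0
      rw [← pow_succ] at this
      exact Ideal.pow_le_pow_right (by omega) this
    · have hpos : 0 < p.2.degree := by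
        rcases Nat.eq_zero_or_pos p.2.degree with h0 | h0
        · exact absurd ((Finsupp.degree_eq_zero_iff _).mp h0) hp2
        · exact h0
      refine Ideal.mul_mem_right _ _ ?_
      exact Ideal.pow_le_pow_right (by omega) (hf' p.1)

/-- Elements of `(X)^n` have vanishing coefficients in degrees `< n`. -/
theorem coeff_eq_zero_of_mem_span_X_pow {n : ℕ} {f : MvPowerSeries σ R}
    (hf : f ∈ (Ideal.span (Set.range (MvPowerSeries.X : σ → MvPowerSeries σ R))) ^ n)
    {e : σ →₀ ℕ} (he : e.degree < n) : MvPowerSeries.coeff e f = 0 := by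
  have h1 : Ideal.span (Set.range (MvPowerSeries.X : σ → MvPowerSeries σ R)) ≤
      constIdeal σ (⊥ : Ideal R) := by
    rw [Ideal.span_le]
    rintro _ ⟨i, rfl⟩
    exact X_mem_constIdeal ⊥ i
  have h2 := constIdeal_pow_le_coeffIdeal (σ := σ) (⊥ : Ideal R) n (Ideal.pow_right_mono h1 n hf)
  have h3 := h2 e
  have hpos : n - e.degree ≠ 0 := by omega
  rw [Ideal.bot_pow hpos] at h3
  simpa using h3

variable [Finite σ]

/-- The coercion of polynomials maps `idealOfVars ^ n` into `(X) ^ n`. -/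
theorem coe_mem_span_X_pow {n : ℕ} {p : MvPolynomial σ R}
    (hp : p ∈ MvPolynomial.idealOfVars σ R ^ n) :
    (p : MvPowerSeries σ R) ∈
      (Ideal.span (Set.range (MvPowerSeries.X : σ → MvPowerSeries σ R))) ^ n := by
  have hmap : Ideal.map (MvPolynomial.coeToMvPowerSeries.ringHom (σ := σ) (R := R))
      (MvPolynomial.idealOfVars σ R) ≤
      Ideal.span (Set.range (MvPowerSeries.X : σ → MvPowerSeries σ R)) := by
    rw [MvPolynomial.idealOfVars, Ideal.map_span, Ideal.span_le]
    rintro _ ⟨_, ⟨i, rfl⟩, rfl⟩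
    apply Ideal.subset_span
    exact ⟨i, (MvPolynomial.coe_X i).symm⟩
  have h1 : (MvPolynomial.coeToMvPowerSeries.ringHom (σ := σ) (R := R)) p ∈
      Ideal.map (MvPolynomial.coeToMvPowerSeries.ringHom (σ := σ) (R := R))
        (MvPolynomial.idealOfVars σ R ^ n) := Ideal.mem_map_of_mem _ hp
  rw [Ideal.map_pow] at h1
  exact Ideal.pow_right_mono hmap n h1

/-- **Tail lemma**: a power series minus its total-degree truncation lies in `(X)^n`. -/
theorem sub_truncTotal_mem_span_X_pow (n : ℕ) (f : MvPowerSeries σ R) :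
    f - ((MvPowerSeries.truncTotal n f : MvPolynomial σ R) : MvPowerSeries σ R) ∈
      (Ideal.span (Set.range (MvPowerSeries.X : σ → MvPowerSeries σ R))) ^ n := by
  set J := Ideal.span (Set.range (MvPowerSeries.X : σ → MvPowerSeries σ R)) with hJ
  -- the sequence of truncations is `J`-adically Cauchy
  have hcauchy : ∀ {m m' : ℕ}, m ≤ m' →
      ((MvPowerSeries.truncTotal m f : MvPolynomial σ R) : MvPowerSeries σ R) ≡
        ((MvPowerSeries.truncTotal m' f : MvPolynomial σ R) : MvPowerSeries σ R)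
        [SMOD (J ^ m • ⊤ : Submodule (MvPowerSeries σ R) (MvPowerSeries σ R))] := by
    intro m m' hmm'
    rw [SModEq.sub_mem, smul_eq_mul, Ideal.mul_top]
    have := coe_mem_span_X_pow
      (MvPowerSeries.truncTotal_sub_truncTotal_mem_pow_idealOfVars le_rfl hmm' f)
    rwa [← MvPolynomial.coeToMvPowerSeries.ringHom_apply, map_sub,
      MvPolynomial.coeToMvPowerSeries.ringHom_apply,
      MvPolynomial.coeToMvPowerSeries.ringHom_apply] at this
  obtain ⟨L, hL⟩ := IsPrecomplete.prec' (I := J) _ hcauchy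
  have hL' : ∀ m, ((MvPowerSeries.truncTotal m f : MvPolynomial σ R) : MvPowerSeries σ R) - L
      ∈ J ^ m := by
    intro m
    have := hL m
    rwa [SModEq.sub_mem, smul_eq_mul, Ideal.mul_top] at this
  have hLf : L = f := by
    ext e
    have h1 := coeff_eq_zero_of_mem_span_X_pow (hL' (e.degree + 1)) (e := e) (Nat.lt_succ_self _)
    rw [map_sub, sub_eq_zero, MvPolynomial.coeff_coe,
      MvPowerSeries.coeff_truncTotal _ (Nat.lt_succ_self _)] at h1
    exact h1.symm
  have := hL' n
  rw [hLf] at this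
  rw [← neg_sub]
  exact Ideal.neg_mem_iff _ |>.mpr this

theorem span_X_le_constIdeal (𝔞 : Ideal R) :
    Ideal.span (Set.range (MvPowerSeries.X : σ → MvPowerSeries σ R)) ≤ constIdeal σ 𝔞 := by
  rw [Ideal.span_le]
  rintro _ ⟨i, rfl⟩
  exact X_mem_constIdeal 𝔞 i

theorem C_mem_constIdeal_pow {𝔞 : Ideal R} {k : ℕ} {c : R} (hc : c ∈ 𝔞 ^ k) :
    (MvPowerSeries.C c : MvPowerSeries σ R) ∈ constIdeal σ 𝔞 ^ k := by
  have hmap : Ideal.map (MvPowerSeries.C (σ := σ) (R := R)) 𝔞 ≤ constIdeal σ 𝔞 := by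
    rw [Ideal.map_le_iff_le_comap]
    intro c hc
    exact C_mem_constIdeal hc
  have h1 : (MvPowerSeries.C (σ := σ) (R := R)) c ∈
      Ideal.map (MvPowerSeries.C (σ := σ) (R := R)) (𝔞 ^ k) := Ideal.mem_map_of_mem _ hc
  rw [Ideal.map_pow] at h1
  exact Ideal.pow_right_mono hmap k h1

theorem coe_monomial_mem_constIdeal_pow {𝔞 : Ideal R} {n : ℕ} (e : σ →₀ ℕ) {c : R}
    (hc : c ∈ 𝔞 ^ (n - e.degree)) :
    ((MvPolynomial.monomial e c : MvPolynomial σ R) : MvPowerSeries σ R) ∈ constIdeal σ 𝔞 ^ n := by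
  rw [MvPolynomial.monomial_eq, MvPolynomial.coe_mul, MvPolynomial.coe_C]
  have h1 := C_mem_constIdeal_pow (σ := σ) hc
  have h2 : ((e.prod fun i k => (MvPolynomial.X i : MvPolynomial σ R) ^ k : MvPolynomial σ R) :
      MvPowerSeries σ R) ∈ constIdeal σ 𝔞 ^ e.degree := by
    have h3 : (e.prod fun i k => (MvPolynomial.X i : MvPolynomial σ R) ^ k) ∈
        MvPolynomial.idealOfVars σ R ^ e.degree := by
      have hmon : (e.prod fun i k => (MvPolynomial.X i : MvPolynomial σ R) ^ k) =
          MvPolynomial.monomial e (1 : R) := by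
        rw [MvPolynomial.monomial_eq, MvPolynomial.C_1, one_mul]
      classical
      rw [MvPolynomial.mem_pow_idealOfVars_iff', hmon]
      intro x hx
      rw [MvPolynomial.coeff_monomial]
      split_ifs with h
      · exact absurd (h ▸ hx) (lt_irrefl _)
      · rfl
    exact Ideal.pow_right_mono (span_X_le_constIdeal 𝔞) _ (coe_mem_span_X_pow h3)
  have h4 := Ideal.mul_mem_mul h1 h2
  rw [← pow_add] at h4
  exact Ideal.pow_le_pow_right (by omega) h4

theorem coeffIdeal_le_constIdeal_pow (𝔞 : Ideal R) (n : ℕ) :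
    coeffIdeal σ 𝔞 n ≤ constIdeal σ 𝔞 ^ n := by
  intro f hf
  have htail := Ideal.pow_right_mono (span_X_le_constIdeal (σ := σ) 𝔞) n
    (sub_truncTotal_mem_span_X_pow n f)
  have hhead : ((MvPowerSeries.truncTotal n f : MvPolynomial σ R) : MvPowerSeries σ R) ∈
      constIdeal σ 𝔞 ^ n := by
    rw [MvPolynomial.as_sum (MvPowerSeries.truncTotal n f)]
    rw [← MvPolynomial.coeToMvPowerSeries.ringHom_apply, map_sum]
    refine Ideal.sum_mem _ fun e _ => ?_
    rw [MvPolynomial.coeToMvPowerSeries.ringHom_apply]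
    apply coe_monomial_mem_constIdeal_pow
    by_cases he : e.degree < n
    · rw [MvPowerSeries.coeff_truncTotal _ he]
      exact hf e
    · rw [MvPowerSeries.coeff_truncTotal_eq_zero _ (not_lt.mp he)]
      exact Ideal.zero_mem _
  have := Ideal.add_mem _ htail hhead
  rwa [sub_add_cancel] at this

theorem constIdeal_pow_eq_coeffIdeal (𝔞 : Ideal R) (n : ℕ) :
    constIdeal σ 𝔞 ^ n = coeffIdeal σ 𝔞 n :=
  le_antisymm (constIdeal_pow_le_coeffIdeal 𝔞 n) (coeffIdeal_le_constIdeal_pow 𝔞 n)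

/-- If `R` is `𝔞`-adically precomplete then `R⟦X₁,…,X_d⟧` is precomplete with respect to
`(𝔞, X₁, …, X_d)`. -/
theorem isPrecomplete_constIdeal (𝔞 : Ideal R) [IsPrecomplete 𝔞 R] :
    IsPrecomplete (constIdeal σ 𝔞) (MvPowerSeries σ R) := by
  refine ⟨fun f hf => ?_⟩
  have hf' : ∀ {m n : ℕ}, m ≤ n → ∀ e : σ →₀ ℕ,
      MvPowerSeries.coeff e (f m) - MvPowerSeries.coeff e (f n) ∈ 𝔞 ^ (m - e.degree) := by
    intro m n hmn e
    have h1 := hf hmn
    rw [SModEq.sub_mem, smul_eq_mul, Ideal.mul_top] at h1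
    have h2 := constIdeal_pow_le_coeffIdeal 𝔞 m h1 e
    rwa [map_sub] at h2
  -- coefficientwise limits
  have hex : ∀ e : σ →₀ ℕ, ∃ L : R, ∀ j : ℕ,
      MvPowerSeries.coeff e (f (j + e.degree)) ≡ L [SMOD (𝔞 ^ j • ⊤ : Submodule R R)] := by
    intro e
    refine IsPrecomplete.prec' (I := 𝔞) (fun j => MvPowerSeries.coeff e (f (j + e.degree))) ?_
    intro j j' hjj'
    rw [SModEq.sub_mem, smul_eq_mul, Ideal.mul_top]
    have := hf' (Nat.add_le_add_right hjj' e.degree) e
    rwa [Nat.add_sub_cancel] at this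
  choose L hL using hex
  let Lp : MvPowerSeries σ R := fun e => L e
  have hLp : ∀ e, MvPowerSeries.coeff e Lp = L e := fun e => rfl
  refine ⟨Lp, fun n => ?_⟩
  rw [SModEq.sub_mem, smul_eq_mul, Ideal.mul_top]
  apply coeffIdeal_le_constIdeal_pow
  intro e
  rw [map_sub, hLp]
  by_cases he : e.degree ≤ n
  · have h1 := hL e (n - e.degree)
    rw [SModEq.sub_mem, smul_eq_mul, Ideal.mul_top, Nat.sub_add_cancel he] at h1
    exact h1
  · have : n - e.degree = 0 := by omega
    rw [this, pow_zero, Ideal.one_eq_top]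
    exact Submodule.mem_top

end Filtration

section Complete

variable {σ : Type*} [Finite σ] {R : Type*} [CommRing R] [IsLocalRing R]

theorem maximalIdeal_mvPowerSeries_eq :
    maximalIdeal (MvPowerSeries σ R) = constIdeal σ (maximalIdeal R) := by
  ext f
  rw [mem_constIdeal_iff, mem_maximalIdeal, mem_maximalIdeal, mem_nonunits_iff, mem_nonunits_iff,
    MvPowerSeries.isUnit_iff_constantCoeff]

theorem X_mem_maximalIdeal_mvPowerSeries (i : σ) :
    (MvPowerSeries.X i : MvPowerSeries σ R) ∈ maximalIdeal (MvPowerSeries σ R) := by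
  rw [maximalIdeal_mvPowerSeries_eq]
  exact X_mem_constIdeal _ i

theorem C_mem_maximalIdeal_mvPowerSeries {c : R} (hc : c ∈ maximalIdeal R) :
    (MvPowerSeries.C c : MvPowerSeries σ R) ∈ maximalIdeal (MvPowerSeries σ R) := by
  rw [maximalIdeal_mvPowerSeries_eq]
  exact C_mem_constIdeal hc

/-- **(C1)** `R⟦X₁,…,X_d⟧` is complete for its maximal ideal when `R` is a complete Noetherian
local ring. -/
theorem isAdicComplete_mvPowerSeries [IsNoetherianRing R] [IsAdicComplete (maximalIdeal R) R] :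
    IsAdicComplete (maximalIdeal (MvPowerSeries σ R)) (MvPowerSeries σ R) := by
  have : IsPrecomplete (maximalIdeal (MvPowerSeries σ R)) (MvPowerSeries σ R) := by
    rw [maximalIdeal_mvPowerSeries_eq]
    exact isPrecomplete_constIdeal _
  exact {}

end Complete

section Eval

variable {σ : Type*} [Finite σ] {R : Type*} [CommRing R]
variable {A : Type*} [CommRing A] [Algebra R A]

theorem aeval_mem_pow_of_mem_idealOfVars_pow (I : Ideal A) {x : σ → A} (hx : ∀ i, x i ∈ I)
    {n : ℕ} {p : MvPolynomial σ R} (hp : p ∈ MvPolynomial.idealOfVars σ R ^ n) :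
    MvPolynomial.aeval x p ∈ I ^ n := by
  have hmap : Ideal.map (MvPolynomial.aeval (R := R) x) (MvPolynomial.idealOfVars σ R) ≤ I := by
    rw [MvPolynomial.idealOfVars, Ideal.map_span, Ideal.span_le]
    rintro _ ⟨_, ⟨i, rfl⟩, rfl⟩
    simpa using hx i
  have h1 : MvPolynomial.aeval (R := R) x p ∈
      Ideal.map (MvPolynomial.aeval (R := R) x) (MvPolynomial.idealOfVars σ R ^ n) :=
    Ideal.mem_map_of_mem _ hp
  rw [Ideal.map_pow] at h1
  exact Ideal.pow_right_mono hmap n h1

/-- level-`n` evaluation `R⟦X⟧ → A ⧸ I ^ n` at a point `x` with coordinates in `I`. -/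
def evalLevel (I : Ideal A) (x : σ → A) (hx : ∀ i, x i ∈ I) (n : ℕ) :
    MvPowerSeries σ R →ₐ[R] A ⧸ I ^ n :=
  (Ideal.Quotient.liftₐ (MvPolynomial.idealOfVars σ R ^ n)
      ((Ideal.Quotient.mkₐ R (I ^ n)).comp (MvPolynomial.aeval (R := R) x))
      (fun p hp => by
        rw [AlgHom.comp_apply, Ideal.Quotient.mkₐ_eq_mk, Ideal.Quotient.eq_zero_iff_mem]
        exact aeval_mem_pow_of_mem_idealOfVars_pow I hx hp)).comp
    ((MvPowerSeries.truncTotalAlgHom σ R n).restrictScalars R)

theorem evalLevel_apply (I : Ideal A) (x : σ → A) (hx : ∀ i, x i ∈ I) (n : ℕ)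
    (f : MvPowerSeries σ R) :
    evalLevel I x hx n f =
      Ideal.Quotient.mk (I ^ n) (MvPolynomial.aeval (R := R) x (MvPowerSeries.truncTotal n f)) := by
  rfl

theorem evalLevel_compat (I : Ideal A) (x : σ → A) (hx : ∀ i, x i ∈ I) {m n : ℕ} (hmn : m ≤ n) :
    (Ideal.Quotient.factorₐ R (Ideal.pow_le_pow_right hmn)).comp (evalLevel (R := R) I x hx n) =
      evalLevel I x hx m := by
  ext f
  rw [AlgHom.comp_apply, evalLevel_apply, evalLevel_apply, Ideal.Quotient.factorₐ_apply_mk,
    Ideal.Quotient.eq]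
  rw [← map_sub]
  exact aeval_mem_pow_of_mem_idealOfVars_pow I hx
    (MvPowerSeries.truncTotal_sub_truncTotal_mem_pow_idealOfVars hmn le_rfl f)

variable (I : Ideal A) [IsAdicComplete I A]

/-- **(C2)** evaluation of power series at a point with coordinates in `I`, for an
`I`-adically complete `R`-algebra `A`. -/
def evalCNL (x : σ → A) (hx : ∀ i, x i ∈ I) : MvPowerSeries σ R →ₐ[R] A :=
  IsAdicComplete.liftAlgHom I (evalLevel I x hx) (fun hmn => evalLevel_compat I x hx hmn)

theorem mk_evalCNL (x : σ → A) (hx : ∀ i, x i ∈ I) (n : ℕ) (f : MvPowerSeries σ R) :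
    Ideal.Quotient.mk (I ^ n) (evalCNL I x hx f) =
      Ideal.Quotient.mk (I ^ n) (MvPolynomial.aeval (R := R) x (MvPowerSeries.truncTotal n f)) := by
  rw [evalCNL, IsAdicComplete.mk_liftAlgHom _ _ (fun hmn => evalLevel_compat I x hx hmn),
    evalLevel_apply]

theorem evalCNL_coe (x : σ → A) (hx : ∀ i, x i ∈ I) (p : MvPolynomial σ R) :
    evalCNL I x hx (p : MvPowerSeries σ R) = MvPolynomial.aeval (R := R) x p := by
  rw [← sub_eq_zero]
  refine IsHausdorff.haus' (I := I) _ fun n => ?_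
  rw [SModEq.zero, smul_eq_mul, Ideal.mul_top, ← Ideal.Quotient.eq, mk_evalCNL, Ideal.Quotient.eq,
    ← map_sub]
  apply aeval_mem_pow_of_mem_idealOfVars_pow I hx
  rw [MvPolynomial.mem_pow_idealOfVars_iff']
  intro e he
  rw [MvPolynomial.coeff_sub, MvPowerSeries.coeff_truncTotal _ he, MvPolynomial.coeff_coe,
    sub_self]

theorem evalCNL_X (x : σ → A) (hx : ∀ i, x i ∈ I) (i : σ) :
    evalCNL I x hx (MvPowerSeries.X i : MvPowerSeries σ R) = x i := by
  rw [← MvPolynomial.coe_X, evalCNL_coe, MvPolynomial.aeval_X]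

/-- **(C3)** two `R`-algebra maps out of `R⟦X⟧` into an `I`-adically separated algebra that agree
on the variables, and send them into `I`, are equal. -/
theorem algHom_ext_of_X (J : Ideal A) [IsHausdorff J A] {φ ψ : MvPowerSeries σ R →ₐ[R] A}
    (hφ : ∀ i, φ (MvPowerSeries.X i) ∈ J) (h : ∀ i, φ (MvPowerSeries.X i) = ψ (MvPowerSeries.X i)) :
    φ = ψ := by
  have hpoly : ∀ p : MvPolynomial σ R, φ (p : MvPowerSeries σ R) = ψ (p : MvPowerSeries σ R) := by
    intro p
    have : φ.comp (MvPolynomial.coeToMvPowerSeries.algHom (σ := σ) (R := R) R) =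
        ψ.comp (MvPolynomial.coeToMvPowerSeries.algHom (σ := σ) (R := R) R) := by
      apply MvPolynomial.algHom_ext
      intro i
      simpa [MvPolynomial.coeToMvPowerSeries.algHom_apply] using h i
    have h2 := congrArg (fun g => g p) this
    simpa [MvPolynomial.coeToMvPowerSeries.algHom_apply] using h2
  have hmap : ∀ (χ : MvPowerSeries σ R →ₐ[R] A), (∀ i, χ (MvPowerSeries.X i) ∈ J) →
      ∀ (n : ℕ) (t : MvPowerSeries σ R),
      t ∈ (Ideal.span (Set.range (MvPowerSeries.X : σ → MvPowerSeries σ R))) ^ n → χ t ∈ J ^ n := by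
    intro χ hχ n t ht
    have hle : Ideal.map χ (Ideal.span (Set.range (MvPowerSeries.X : σ → MvPowerSeries σ R))) ≤ J := by
      rw [Ideal.map_span, Ideal.span_le]
      rintro _ ⟨_, ⟨i, rfl⟩, rfl⟩
      exact hχ i
    have h1 : χ t ∈ Ideal.map χ
        ((Ideal.span (Set.range (MvPowerSeries.X : σ → MvPowerSeries σ R))) ^ n) :=
      Ideal.mem_map_of_mem _ ht
    rw [Ideal.map_pow] at h1
    exact Ideal.pow_right_mono hle n h1
  ext f
  rw [← sub_eq_zero]
  refine IsHausdorff.haus' (I := J) _ fun n => ?_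
  rw [SModEq.zero, smul_eq_mul, Ideal.mul_top]
  have ht := sub_truncTotal_mem_span_X_pow n f
  have h1 := hmap φ hφ n _ ht
  have h2 := hmap ψ (fun i => h i ▸ hφ i) n _ ht
  have h3 := Ideal.sub_mem _ h1 h2
  rw [map_sub, map_sub, hpoly] at h3
  simpa using h3

end Eval

section Surjective

variable {σ : Type*} [Finite σ] {R : Type*} [CommRing R] [IsLocalRing R]
variable {A : Type*} [CommRing A] [Algebra R A] [IsLocalRing A]

/-- the maximal ideal of `R⟦X⟧` is generated by `𝔪_R` and the variables. -/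
theorem maximalIdeal_mvPowerSeries_eq_sup :
    maximalIdeal (MvPowerSeries σ R) =
      Ideal.map (MvPowerSeries.C (σ := σ) (R := R)) (maximalIdeal R) ⊔
        Ideal.span (Set.range (MvPowerSeries.X : σ → MvPowerSeries σ R)) := by
  apply le_antisymm
  · intro f hf
    have h0 : MvPowerSeries.constantCoeff f ∈ maximalIdeal R := by
      rwa [maximalIdeal_mvPowerSeries_eq] at hf
    have ht := sub_truncTotal_mem_span_X_pow 1 f
    rw [pow_one] at ht
    have htr : ((MvPowerSeries.truncTotal 1 f : MvPolynomial σ R) : MvPowerSeries σ R) =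
        MvPowerSeries.C (MvPowerSeries.constantCoeff f) := by
      ext e
      rw [MvPolynomial.coeff_coe]
      by_cases he : e.degree < 1
      · have he0 : e = 0 := by
          apply (Finsupp.degree_eq_zero_iff _).mp
          omega
        subst he0
        rw [MvPowerSeries.coeff_truncTotal _ he]
        simp
      · have he0 : e ≠ 0 := by
          rintro rfl
          simp at he
        rw [MvPowerSeries.coeff_truncTotal_eq_zero _ (not_lt.mp he)]
        classical
        rw [MvPowerSeries.coeff_C, if_neg he0]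
    rw [htr] at ht
    have : f = MvPowerSeries.C (MvPowerSeries.constantCoeff f) +
        (f - MvPowerSeries.C (MvPowerSeries.constantCoeff f)) := by ring
    rw [this]
    exact Ideal.add_mem _ (Ideal.mem_sup_left (Ideal.mem_map_of_mem _ h0)) (Ideal.mem_sup_right ht)
  · refine sup_le ?_ ?_
    · rw [Ideal.map_le_iff_le_comap]
      intro c hc
      exact C_mem_maximalIdeal_mvPowerSeries hc
    · rw [Ideal.span_le]
      rintro _ ⟨i, rfl⟩
      exact X_mem_maximalIdeal_mvPowerSeries i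

theorem map_maximalIdeal_mvPowerSeries (φ : MvPowerSeries σ R →ₐ[R] A) :
    Ideal.map φ (maximalIdeal (MvPowerSeries σ R)) =
      Ideal.map (algebraMap R A) (maximalIdeal R) ⊔
        Ideal.span (Set.range fun i => φ (MvPowerSeries.X i)) := by
  rw [maximalIdeal_mvPowerSeries_eq_sup, Ideal.map_sup, Ideal.map_span]
  congr 1
  · have : Ideal.map φ (Ideal.map (MvPowerSeries.C (σ := σ) (R := R)) (maximalIdeal R)) =
        Ideal.map ((φ : MvPowerSeries σ R →+* A).comp (MvPowerSeries.C (σ := σ) (R := R)))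
          (maximalIdeal R) := Ideal.map_map _ _
    rw [this]
    congr 1
    ext c
    simp [MvPowerSeries.c_eq_algebraMap]
  · congr 1
    ext a
    constructor
    · rintro ⟨_, ⟨i, rfl⟩, rfl⟩
      exact ⟨i, rfl⟩
    · rintro ⟨i, rfl⟩
      exact ⟨_, ⟨i, rfl⟩, rfl⟩

/-- **(C4)** surjectivity criterion: if the images of `𝔪_R` and of the variables generate `𝔪_A`
and `R → A/𝔪_A` is onto, then `φ : R⟦X⟧ → A` is onto (`A` local, `𝔪_A`-adically separated,
`R` complete Noetherian local). -/
theorem surjective_of_map_maximalIdeal [IsNoetherianRing R] [IsAdicComplete (maximalIdeal R) R]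
    [IsHausdorff (maximalIdeal A) A]
    (φ : MvPowerSeries σ R →ₐ[R] A)
    (hres : Function.Surjective (IsLocalRing.residue A ∘ algebraMap R A))
    (hgen : Ideal.map (algebraMap R A) (maximalIdeal R) ⊔
        Ideal.span (Set.range fun i => φ (MvPowerSeries.X i)) = maximalIdeal A) :
    Function.Surjective φ := by
  have hmap : Ideal.map (φ : MvPowerSeries σ R →+* A) (maximalIdeal (MvPowerSeries σ R)) =
      maximalIdeal A := by
    rw [← hgen]
    exact map_maximalIdeal_mvPowerSeries φ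
  haveI : IsAdicComplete (maximalIdeal (MvPowerSeries σ R)) (MvPowerSeries σ R) :=
    isAdicComplete_mvPowerSeries
  haveI : IsHausdorff (Ideal.map (φ : MvPowerSeries σ R →+* A)
      (maximalIdeal (MvPowerSeries σ R))) A := by
    rw [hmap]; infer_instance
  refine surjective_of_mk_map_comp_surjective (I := maximalIdeal (MvPowerSeries σ R))
    (φ : MvPowerSeries σ R →+* A) ?_
  intro y
  obtain ⟨a, rfl⟩ := Ideal.Quotient.mk_surjective y
  obtain ⟨c, hc⟩ := hres (IsLocalRing.residue A a)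
  refine ⟨MvPowerSeries.C c, ?_⟩
  rw [RingHom.comp_apply, Ideal.Quotient.eq, hmap]
  have h1 : (φ : MvPowerSeries σ R →+* A) (MvPowerSeries.C c) = algebraMap R A c := by
    rw [MvPowerSeries.c_eq_algebraMap]
    exact φ.commutes c
  rw [h1]
  rw [Function.comp_apply] at hc
  rw [← Ideal.Quotient.eq]
  exact hc

end Surjective

section Quotient

variable {R : Type*} [CommRing R] [IsLocalRing R]
variable {S : Type*} [CommRing S] [IsLocalRing S] [Algebra R S]

/-- a proper quotient of a local ring is local. -/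
theorem isLocalRing_quotient (𝔟 : Ideal S) (h : 𝔟 ≠ ⊤) : IsLocalRing (S ⧸ 𝔟) := by
  have : Nontrivial (S ⧸ 𝔟) := Ideal.Quotient.nontrivial_iff.mpr h
  exact IsLocalRing.of_surjective' (Ideal.Quotient.mk 𝔟) Ideal.Quotient.mk_surjective

theorem isLocalHom_quotient_mk (𝔟 : Ideal S) (h : 𝔟 ≠ ⊤) :
    IsLocalHom (Ideal.Quotient.mk 𝔟) := by
  refine ⟨fun a ha => ?_⟩
  by_contra hna
  have ha' : a ∈ maximalIdeal S := hna
  have hle : 𝔟 ≤ maximalIdeal S := IsLocalRing.le_maximalIdeal h
  have hmax : (maximalIdeal S).map (Ideal.Quotient.mk 𝔟) ≠ ⊤ := by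
    intro htop
    have h1 : (1 : S ⧸ 𝔟) ∈ (maximalIdeal S).map (Ideal.Quotient.mk 𝔟) := htop ▸ Submodule.mem_top
    rw [← map_one (Ideal.Quotient.mk 𝔟),
      Ideal.mem_map_iff_of_surjective _ Ideal.Quotient.mk_surjective] at h1
    obtain ⟨b, hb, hb1⟩ := h1
    have h2 : b - 1 ∈ 𝔟 := by
      rw [← Ideal.Quotient.eq_zero_iff_mem, map_sub, hb1, sub_self]
    have h3 : (1 : S) ∈ maximalIdeal S := by
      have := Ideal.sub_mem _ hb (hle h2)
      simpa using this
    exact (maximalIdeal.isMaximal S).ne_top ((Ideal.eq_top_iff_one _).mpr h3)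
  apply hmax
  apply Ideal.eq_top_of_isUnit_mem _ (Ideal.mem_map_of_mem _ ha') ha

/-- **(C5)** a proper quotient of a complete Noetherian local ring is complete. -/
theorem isAdicComplete_quotient [IsNoetherianRing S] [IsAdicComplete (maximalIdeal S) S]
    (𝔟 : Ideal S) (h : 𝔟 ≠ ⊤) :
    letI := isLocalRing_quotient 𝔟 h
    IsAdicComplete (maximalIdeal (S ⧸ 𝔟)) (S ⧸ 𝔟) := by
  letI := isLocalRing_quotient 𝔟 h
  haveI : IsLocalHom (algebraMap S (S ⧸ 𝔟)) := isLocalHom_quotient_mk 𝔟 h
  exact IsLocalRing.isAdicComplete_of_module_finite (𝒪 := S) (T := S ⧸ 𝔟)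

theorem isLocalHom_algebraMap_quotient [IsLocalHom (algebraMap R S)] (𝔟 : Ideal S) (h : 𝔟 ≠ ⊤) :
    letI := isLocalRing_quotient 𝔟 h
    IsLocalHom (algebraMap R (S ⧸ 𝔟)) := by
  letI := isLocalRing_quotient 𝔟 h
  haveI : IsLocalHom (Ideal.Quotient.mk 𝔟) := isLocalHom_quotient_mk 𝔟 h
  refine ⟨fun a ha => ?_⟩
  have h1 : algebraMap R (S ⧸ 𝔟) a = Ideal.Quotient.mk 𝔟 (algebraMap R S a) := rfl
  rw [h1] at ha
  exact isUnit_of_map_unit (algebraMap R S) a (isUnit_of_map_unit (Ideal.Quotient.mk 𝔟) _ ha)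

theorem residue_surjective_quotient
    (hres : Function.Surjective (IsLocalRing.residue S ∘ algebraMap R S))
    (𝔟 : Ideal S) (h : 𝔟 ≠ ⊤) :
    letI := isLocalRing_quotient 𝔟 h
    Function.Surjective (IsLocalRing.residue (S ⧸ 𝔟) ∘ algebraMap R (S ⧸ 𝔟)) := by
  letI := isLocalRing_quotient 𝔟 h
  haveI : IsLocalHom (Ideal.Quotient.mk 𝔟) := isLocalHom_quotient_mk 𝔟 h
  intro y
  obtain ⟨a, rfl⟩ := IsLocalRing.residue_surjective y
  obtain ⟨s, rfl⟩ := Ideal.Quotient.mk_surjective a
  obtain ⟨c, hc⟩ := hres (IsLocalRing.residue S s)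
  refine ⟨c, ?_⟩
  rw [Function.comp_apply] at hc ⊢
  have h1 : algebraMap R (S ⧸ 𝔟) c = Ideal.Quotient.mk 𝔟 (algebraMap R S c) := rfl
  rw [h1]
  have hc' : algebraMap R S c - s ∈ maximalIdeal S := by
    rw [← Ideal.Quotient.eq]
    exact hc
  rw [← sub_eq_zero, ← map_sub, ← map_sub, IsLocalRing.residue_eq_zero_iff]
  intro hu
  exact hc' (isUnit_of_map_unit (Ideal.Quotient.mk 𝔟) _ hu)

end Quotient

section PowerSeriesOverO

variable {σ : Type*} [Finite σ] {R : Type*} [CommRing R] [IsLocalRing R]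

theorem isLocalHom_algebraMap_mvPowerSeries : IsLocalHom (algebraMap R (MvPowerSeries σ R)) := by
  refine ⟨fun a ha => ?_⟩
  rw [← MvPowerSeries.c_eq_algebraMap, MvPowerSeries.isUnit_iff_constantCoeff] at ha
  simpa using ha

theorem residue_surjective_mvPowerSeries :
    Function.Surjective
      (IsLocalRing.residue (MvPowerSeries σ R) ∘ algebraMap R (MvPowerSeries σ R)) := by
  intro y
  obtain ⟨f, rfl⟩ := IsLocalRing.residue_surjective y
  refine ⟨MvPowerSeries.constantCoeff f, ?_⟩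
  rw [Function.comp_apply, ← sub_eq_zero, ← map_sub, IsLocalRing.residue_eq_zero_iff,
    maximalIdeal_mvPowerSeries_eq, mem_constIdeal_iff, map_sub, ← MvPowerSeries.c_eq_algebraMap]
  simp

end PowerSeriesOverO

section Package

variable {R : Type*} [CommRing R] [IsLocalRing R] [IsNoetherianRing R]
  [IsAdicComplete (maximalIdeal R) R]
variable {A : Type*} [CommRing A] [Algebra R A] [IsLocalRing A] [IsAdicComplete (maximalIdeal A) A]

/-- Nakayama: in a Noetherian local ring, an ideal `N ≤ 𝔪` with `𝔪 ≤ N ⊔ 𝔪²` equals `𝔪`. -/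
theorem maximalIdeal_le_of_le_sup_sq {B : Type*} [CommRing B] [IsLocalRing B] [IsNoetherianRing B]
    (N : Ideal B) (h : maximalIdeal B ≤ N ⊔ maximalIdeal B ^ 2) : maximalIdeal B ≤ N := by
  refine Submodule.le_of_le_smul_of_le_jacobson_bot (I := maximalIdeal B) (N := N)
    (N' := maximalIdeal B) (IsNoetherian.noetherian _) ?_ ?_
  · exact IsLocalRing.maximalIdeal_le_jacobson ⊥
  · rwa [smul_eq_mul, ← pow_two]

/-- **Package**: a complete local `R`-algebra `A` with `R → A/𝔪_A` onto, whose maximal ideal is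
generated by the image of `𝔪_R` and `d` elements `x i`, is a quotient of `R⟦X₁,…,X_d⟧` via
`X i ↦ x i`. -/
theorem exists_surjective_algHom_of_generators {d : ℕ}
    (hres : Function.Surjective (IsLocalRing.residue A ∘ algebraMap R A))
    (x : Fin d → A)
    (hgen : Ideal.map (algebraMap R A) (maximalIdeal R) ⊔ Ideal.span (Set.range x) =
      maximalIdeal A) :
    ∃ φ : MvPowerSeries (Fin d) R →ₐ[R] A,
      Function.Surjective φ ∧ ∀ i, φ (MvPowerSeries.X i) = x i := by
  have hx : ∀ i, x i ∈ maximalIdeal A := fun i => by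
    rw [← hgen]
    exact Ideal.mem_sup_right (Ideal.subset_span ⟨i, rfl⟩)
  refine ⟨evalCNL (maximalIdeal A) x hx, ?_, fun i => evalCNL_X _ _ _ i⟩
  apply surjective_of_map_maximalIdeal _ hres
  have : (fun i => evalCNL (R := R) (maximalIdeal A) x hx (MvPowerSeries.X i)) = x :=
    funext fun i => evalCNL_X _ _ _ i
  rw [this]
  exact hgen

/-- **Package, cotangent form**: same with generation only modulo `𝔪_A²` (`A` Noetherian). -/
theorem exists_surjective_algHom_of_generators_mod_sq [IsNoetherianRing A] {d : ℕ}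
    (hloc : IsLocalHom (algebraMap R A))
    (hres : Function.Surjective (IsLocalRing.residue A ∘ algebraMap R A))
    (x : Fin d → A) (hx : ∀ i, x i ∈ maximalIdeal A)
    (hgen : maximalIdeal A ≤ Ideal.map (algebraMap R A) (maximalIdeal R) ⊔
      Ideal.span (Set.range x) ⊔ maximalIdeal A ^ 2) :
    ∃ φ : MvPowerSeries (Fin d) R →ₐ[R] A,
      Function.Surjective φ ∧ ∀ i, φ (MvPowerSeries.X i) = x i := by
  apply exists_surjective_algHom_of_generators hres x
  apply le_antisymm
  · refine sup_le ?_ ?_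
    · rw [Ideal.map_le_iff_le_comap]
      intro c hc
      rw [Ideal.mem_comap]
      intro hu
      exact hc (hloc.map_nonunit c hu)
    · rw [Ideal.span_le]
      rintro _ ⟨i, rfl⟩
      exact hx i
  · exact maximalIdeal_le_of_le_sup_sq _ hgen

end Package

end

end Fermat.Agent.S53.H596
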