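import Mathlib

/-!
# Tower (Chevalley / Mittag-Leffler) lemma for ideals in an adically precomplete ring
-/

set_option autoImplicit false

namespace Fermat.Agent.S53.H596

/-- **Tower lemma.** Let `S` be `𝔪`-adically precomplete, `I : ℕ → Ideal S` antitone with
`𝔪 ^ n ≤ I n` and `I n ≤ I (n+1) ⊔ 𝔪 ^ n`.  Then `I n ≤ (⨅ j, I j) ⊔ 𝔪 ^ n`. -/
theorem tower_le {S : Type*} [CommRing S] (𝔪 : Ideal S) [IsPrecomplete 𝔪 S]
    (I : ℕ → Ideal S) (hanti : Antitone I) (hm : ∀ n, 𝔪 ^ n ≤ I n)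
    (hstep : ∀ n, I n ≤ I (n + 1) ⊔ 𝔪 ^ n) (n : ℕ) :
    I n ≤ (⨅ j, I j) ⊔ 𝔪 ^ n := by
  intro x hx
  -- one step of the approximation
  have step : ∀ (j : ℕ) (y : S), y ∈ I j → ∃ a, a ∈ I (j + 1) ∧ y - a ∈ 𝔪 ^ j := by
    intro j y hy
    obtain ⟨a, ha, b, hb, hab⟩ := Submodule.mem_sup.mp (hstep j hy)
    exact ⟨a, ha, by rw [← hab, add_sub_cancel_left]; exact hb⟩
  choose! nxt hnxt1 hnxt2 using step
  -- the approximating sequence `y j ∈ I (n + j)`
  let y : ℕ → S := fun j => Nat.rec x (fun j yj => nxt (n + j) yj) j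
  have hy0 : y 0 = x := rfl
  have hysucc : ∀ j, y (j + 1) = nxt (n + j) (y j) := fun j => rfl
  have hymem : ∀ j, y j ∈ I (n + j) := by
    intro j
    induction j with
    | zero => simpa [hy0] using hx
    | succ j ih =>
      rw [hysucc]
      exact hnxt1 (n + j) (y j) ih
  have hydiff : ∀ j, y j - y (j + 1) ∈ 𝔪 ^ (n + j) := by
    intro j
    rw [hysucc]
    exact hnxt2 (n + j) (y j) (hymem j)
  have hytel : ∀ a b, a ≤ b → y a - y b ∈ 𝔪 ^ (n + a) := by
    intro a b hab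
    induction b, hab using Nat.le_induction with
    | base => simp
    | succ b hab ih =>
      have h1 : y a - y (b + 1) = (y a - y b) + (y b - y (b + 1)) := by ring
      rw [h1]
      refine Ideal.add_mem _ ih ?_
      exact Ideal.pow_le_pow_right (by omega) (hydiff b)
  -- Cauchy sequence `f k = y (k - n)`
  obtain ⟨L, hL⟩ := IsPrecomplete.prec' (I := 𝔪) (fun k => y (k - n)) (by
    intro a b hab
    rw [SModEq.sub_mem, smul_eq_mul, Ideal.mul_top]
    exact Ideal.pow_le_pow_right (by omega) (hytel (a - n) (b - n) (Nat.sub_le_sub_right hab n)))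
  have hL' : ∀ k, y (k - n) - L ∈ 𝔪 ^ k := by
    intro k
    have := hL k
    rwa [SModEq.sub_mem, smul_eq_mul, Ideal.mul_top] at this
  have hLmem : L ∈ ⨅ j, I j := by
    rw [Ideal.mem_iInf]
    intro j
    have h1 : y (max j n - n) ∈ I j := by
      refine hanti ?_ (hymem (max j n - n))
      have : n ≤ max j n := le_max_right _ _
      have : j ≤ max j n := le_max_left _ _
      omega
    have h2 : y (max j n - n) - L ∈ I j :=
      hanti (le_max_left j n) (hm _ (hL' (max j n)))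
    have := Ideal.sub_mem _ h1 h2
    simpa using this
  have hxL : x - L ∈ 𝔪 ^ n := by
    have := hL' n
    simpa [hy0] using this
  have : x = L + (x - L) := by ring
  rw [this]
  exact Ideal.add_mem _ (Ideal.mem_sup_left hLmem) (Ideal.mem_sup_right hxL)

/-- Equality form of the tower lemma. -/
theorem tower_eq {S : Type*} [CommRing S] (𝔪 : Ideal S) [IsPrecomplete 𝔪 S]
    (I : ℕ → Ideal S) (hanti : Antitone I) (hm : ∀ n, 𝔪 ^ n ≤ I n)
    (hstep : ∀ n, I n ≤ I (n + 1) ⊔ 𝔪 ^ n) (n : ℕ) :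
    (⨅ j, I j) ⊔ 𝔪 ^ n = I n :=
  le_antisymm (sup_le (iInf_le _ n) (hm n)) (tower_le 𝔪 I hanti hm hstep n)

end Fermat.Agent.S53.H596
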